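import Fermat.Agent.S33.Val.Split.Bounded

/-!
# S33 / Val / Kummer / Avg : the averaging idempotent of a Kummer generator close to `1` (pure Mathlib)

`W` a valuation subring of `E ⊇ K`, `m` invertible in `K`.  If `y ≡ 1 (mod c m W)` then for an `m`-th root of unity `ζ`
`m⁻¹ ∑_{j<m} (ζ y)^j ≡ [ζ = 1]  (mod c W)`.
-/

set_option autoImplicit false

namespace Fermat.Agent.S33.Val

variable {K E : Type*} [Field K] [Field E] [Algebra K E]

/-- a root of unity of `K` lies in `W`.  (`W.valuation (algebraMap ζ) ^ m = 1`, so `= 1`: `pow_eq_one_iff_of_nonneg`/`pow_eq_one_iff`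
in a linearly ordered group with zero; or `S36.Val.mem_of_monic_root`.) -/
theorem Avg_root_mem (W : ValuationSubring E) {m : ℕ} (hm : m ≠ 0) {ζ : K} (hζ : ζ ^ m = 1) :
    algebraMap K E ζ ∈ W := by
  rw [← W.valuation_le_one_iff]
  have h1 : W.valuation (algebraMap K E ζ) ^ m = 1 := by
    rw [← map_pow, ← map_pow, hζ, map_one, map_one]
  exact ((pow_eq_one_iff_of_nonneg zero_le hm).1 h1).le

/-- `y ≡ 1 (mod d W)`, `d ∈ W` ⟹ `y ^ j ≡ 1 (mod d W)`.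
(induction: `y^(j+1) - 1 = y^j * (y - 1) + (y^j - 1)`, `y = 1 + d * (d⁻¹ • (y-1)) ∈ W`.) -/
theorem Avg_pow (W : ValuationSubring E) {d : K} (hd0 : d ≠ 0) (hd : algebraMap K E d ∈ W) {y : E}
    (hy : d⁻¹ • (y - 1) ∈ W) (j : ℕ) : d⁻¹ • (y ^ j - 1) ∈ W := by
  have hyW : y ∈ W := by
    have h1 : y = 1 + algebraMap K E d * (d⁻¹ • (y - 1)) := by
      rw [← Algebra.smul_def, smul_smul, mul_inv_cancel₀ hd0, one_smul]
      ring
    rw [h1]
    exact W.add_mem _ _ W.one_mem (W.mul_mem _ _ hd hy)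
  induction j with
  | zero => simp only [pow_zero, sub_self, smul_zero]; exact W.zero_mem
  | succ j ih =>
    have h1 : d⁻¹ • (y ^ (j + 1) - 1) = y ^ j * (d⁻¹ • (y - 1)) + d⁻¹ • (y ^ j - 1) := by
      rw [mul_smul_comm, ← smul_add]
      congr 1
      ring
    rw [h1]
    exact W.add_mem _ _ (W.mul_mem _ _ (W.pow_mem hyW j) hy) ih

open Classical in
/-- **The averaging idempotent.**
PROOF. `d := c * m ∈ W` (`natCast_mem`).  `m⁻¹ ∑_j (ζ y)^j - m⁻¹ ∑_j ζ^j = m⁻¹ ∑_j ζ^j (y^j - 1)`, and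
`c⁻¹ • m⁻¹ • (ζ^j * (y^j - 1)) = ζ^j * (d⁻¹ • (y^j - 1)) ∈ W` (`Avg_root_mem`, `Avg_pow`; `Subring.sum_mem`).
`m⁻¹ ∑_{j<m} ζ^j = 1` if `ζ = 1` (`Finset.sum_const`, `hm`), and `= 0` if `ζ ≠ 1` (`mul_geom_sum`/`geom_sum_eq`: `(ζ - 1) ∑ ζ^j = ζ^m - 1 = 0`). -/
theorem Avg_main (W : ValuationSubring E) {m : ℕ} (hm : (m : K) ≠ 0) {c : K} (hc0 : c ≠ 0)
    (hc : algebraMap K E c ∈ W) {y : E} (hy : (c * m)⁻¹ • (y - 1) ∈ W) {ζ : K} (hζ : ζ ^ m = 1) :
    c⁻¹ • (((m : K)⁻¹ • ∑ j ∈ Finset.range m, (ζ • y) ^ j) - (if ζ = 1 then 1 else 0)) ∈ W := by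
  have hm0 : m ≠ 0 := by
    rintro rfl
    exact hm Nat.cast_zero
  have hd0 : c * (m : K) ≠ 0 := mul_ne_zero hc0 hm
  have hd : algebraMap K E (c * (m : K)) ∈ W := by
    rw [map_mul, map_natCast]
    exact W.mul_mem _ _ hc (natCast_mem W m)
  have hsum : (m : K)⁻¹ * ∑ j ∈ Finset.range m, ζ ^ j = if ζ = 1 then 1 else 0 := by
    split_ifs with h1
    · subst h1
      simp only [one_pow, Finset.sum_const, Finset.card_range, nsmul_eq_mul, mul_one]
      exact inv_mul_cancel₀ hm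
    · have h2 : (ζ - 1) * ∑ j ∈ Finset.range m, ζ ^ j = 0 := by
        rw [mul_geom_sum, hζ, sub_self]
      rcases mul_eq_zero.1 h2 with h3 | h3
      · exact absurd (sub_eq_zero.1 h3) h1
      · rw [h3, mul_zero]
  have hif : ((if ζ = 1 then 1 else 0 : E)) = algebraMap K E (if ζ = 1 then 1 else 0) := by
    split_ifs <;> simp
  have key : c⁻¹ • (((m : K)⁻¹ • ∑ j ∈ Finset.range m, (ζ • y) ^ j) - (if ζ = 1 then 1 else 0)) =
      ∑ j ∈ Finset.range m, algebraMap K E ζ ^ j * ((c * (m : K))⁻¹ • (y ^ j - 1)) := by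
    rw [hif, ← hsum, map_mul, map_sum, ← Algebra.smul_def, ← smul_sub, ← Finset.sum_sub_distrib,
      smul_smul, ← mul_inv, Finset.smul_sum]
    refine Finset.sum_congr rfl (fun j _ => ?_)
    rw [mul_smul_comm]
    congr 1
    rw [smul_pow, Algebra.smul_def, map_pow]
    ring
  rw [key]
  exact Subring.sum_mem W.toSubring (fun j _ =>
    W.mul_mem _ _ (W.pow_mem (Avg_root_mem W hm0 hζ) j) (Avg_pow W hd0 hd hy j))

end Fermat.Agent.S33.Val
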