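import Fermat.Agent.S33.Val.Kummer.Avg

/-!
# S33 / Val / Kummer / Root : an `m`-th root of an element close to `1` is close to a root of unity (pure Mathlib)
-/

set_option autoImplicit false

namespace Fermat.Agent.S33.Val

variable {K E : Type*} [Field K] [Field E] [Algebra K E]

theorem Root_prod_not_mem (W : ValuationSubring E) {ι : Type*} (s : Finset ι) (hs : s.Nonempty)
    (a : ι → E) (ha : ∀ i ∈ s, a i ∉ W) : ∏ i ∈ s, a i ∉ W := by
  classical
  induction hs using Finset.Nonempty.cons_induction with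
  | singleton i => simpa using ha i (by simp)
  | cons i s hi hs ih =>
    rw [Finset.prod_cons]
    have h1 := ha i (Finset.mem_cons_self i s)
    have h2 := ih (fun j hj => ha j (Finset.mem_cons_of_mem hj))
    rw [← ValuationSubring.valuation_le_one_iff, not_le] at h1 h2 ⊢
    rw [map_mul]
    calc (1 : W.ValueGroup) < W.valuation (a i) := h1
      _ = W.valuation (a i) * 1 := (mul_one _).symm
      _ ≤ W.valuation (a i) * W.valuation (∏ j ∈ s, a j) := mul_le_mul_right h2.le _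

/-- PROOF. `K` algebraically closed, `(m : K) ≠ 0`: there is a primitive `m`-th root of unity `ζ₀ : K`
(`IsAlgClosed.exists_primitiveRoot`/`HasEnoughRootsOfUnity`/`IsPrimitiveRoot` from `NeZero (m : K)`: `IsCyclotomicExtension`..., e.g.
`(IsAlgClosed.splits (cyclotomic m K))`, `Polynomial.isRoot_cyclotomic_iff`), so `X ^ m - 1 = ∏ ζ ∈ nthRootsFinset m 1, (X - C ζ)` in `K[X]`
(`Polynomial.X_pow_sub_one_eq_prod`).  Map to `E` and evaluate at `z`: `∏ ζ, (z - algebraMap ζ) = z ^ m - 1 = c ^ m • w`; the number of factors is `m`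
(`IsPrimitiveRoot.card_nthRootsFinset`).
If `W.valuation (z - ζ) > W.valuation c` for all `ζ` then `W.valuation (∏) > W.valuation c ^ m ≥ W.valuation (c^m • w)` (`Finset.prod_lt_prod'`-like,
or `Finset.prod_lt_prod_of_nonempty`; `map_prod`): contradiction.  So there is `ζ` with `c⁻¹ • (z - ζ) ∈ W` (`ValuationSubring.valuation_le_one_iff`).
Answer: `ζ⁻¹`: `c⁻¹ • (ζ⁻¹ • z - 1) = ζ⁻¹ * (c⁻¹ • (z - ζ))`, `Avg_root_mem`. -/
theorem exists_root_close [IsAlgClosed K] (W : ValuationSubring E) {m : ℕ} (hm : (m : K) ≠ 0) {c : K} (hc : c ≠ 0)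
    {z w : E} (hw : w ∈ W) (hz : z ^ m = 1 + (c ^ m) • w) :
    ∃ ζ : K, ζ ^ m = 1 ∧ c⁻¹ • (ζ • z - 1) ∈ W := by
  classical
  have hm0 : m ≠ 0 := by
    rintro rfl
    exact hm Nat.cast_zero
  have : NeZero (m : K) := ⟨hm⟩
  have : NeZero m := ⟨hm0⟩
  obtain ⟨ζ₀, hζ₀⟩ := HasEnoughRootsOfUnity.exists_primitiveRoot K m
  have hfac := Polynomial.X_pow_sub_one_eq_prod (Nat.pos_of_ne_zero hm0) hζ₀
  have hcard : (Polynomial.nthRootsFinset m (1 : K)).card = m := hζ₀.card_nthRootsFinset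
  have hev : ∏ ζ ∈ Polynomial.nthRootsFinset m (1 : K), (z - algebraMap K E ζ) = z ^ m - 1 := by
    have h1 := congrArg (fun P : Polynomial K => Polynomial.aeval z P) hfac
    simp only [map_sub, map_pow, Polynomial.aeval_X, map_one, map_prod, Polynomial.aeval_C] at h1
    exact h1.symm
  have hne : (Polynomial.nthRootsFinset m (1 : K)).Nonempty := by
    rw [← Finset.card_pos, hcard]
    exact Nat.pos_of_ne_zero hm0
  have hex : ∃ ζ ∈ Polynomial.nthRootsFinset m (1 : K), c⁻¹ • (z - algebraMap K E ζ) ∈ W := by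
    by_contra hcon
    push Not at hcon
    have h2 := Root_prod_not_mem W _ hne (fun ζ : K => c⁻¹ • (z - algebraMap K E ζ)) hcon
    apply h2
    have h3 : ∏ ζ ∈ Polynomial.nthRootsFinset m (1 : K), c⁻¹ • (z - algebraMap K E ζ) = w := by
      simp only [Algebra.smul_def]
      rw [Finset.prod_mul_distrib, Finset.prod_const, hcard, hev, hz, add_sub_cancel_left,
        Algebra.smul_def, ← mul_assoc, ← map_pow, ← map_mul, inv_pow,
        inv_mul_cancel₀ (pow_ne_zero m hc), map_one, one_mul]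
    rw [h3]
    exact hw
  obtain ⟨ζ, hζmem, hζ⟩ := hex
  have hζ1 : ζ ^ m = 1 := (Polynomial.mem_nthRootsFinset (Nat.pos_of_ne_zero hm0) 1).1 hζmem
  have hζ0 : ζ ≠ 0 := by
    rintro rfl
    rw [zero_pow hm0] at hζ1
    exact zero_ne_one hζ1
  have hζi : ζ⁻¹ ^ m = 1 := by rw [inv_pow, hζ1, inv_one]
  refine ⟨ζ⁻¹, hζi, ?_⟩
  have h4 : c⁻¹ • (ζ⁻¹ • z - 1) = algebraMap K E ζ⁻¹ * (c⁻¹ • (z - algebraMap K E ζ)) := by
    simp only [Algebra.smul_def]
    have h5 : algebraMap K E ζ⁻¹ * algebraMap K E ζ = 1 := by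
      rw [← map_mul, inv_mul_cancel₀ hζ0, map_one]
    linear_combination (algebraMap K E c⁻¹) * h5
  rw [h4]
  exact W.mul_mem _ _ (Avg_root_mem W hm0 hζi) hζ

end Fermat.Agent.S33.Val
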