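import Fermat.Agent.S33.Val.Kummer.Idem
import Fermat.Agent.S33.Val.Kummer.Root

/-!
# S33 / Val / Kummer / Deep : an extension generated by `m`-th roots of deep elements is totally split (pure Mathlib)
-/

set_option autoImplicit false

namespace Fermat.Agent.S33.Val

variable {K F E : Type*} [Field K] [Field F] [Field E] [Algebra K F] [Algebra K E] [Algebra F E]
  [IsScalarTower K F E]

/-- an automorphism `≠ 1` moves one of the generators.
(by contradiction: `h` fixes `Y` pointwise; `IntermediateField.adjoin_induction`/`AlgHom.ext_of_adjoin_eq_top`/`IntermediateField.algHom_ext_of_eq_adjoin`;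
or: the fixed field `IntermediateField.fixedField (Subgroup.zpowers h)` contains `Y`, hence is `⊤`.) -/
theorem Deep_exists_moved {Y : Set E} (hgen : IntermediateField.adjoin F Y = ⊤) (h : E ≃ₐ[F] E) (hh : h ≠ 1) :
    ∃ y ∈ Y, h y ≠ y := by
  by_contra hcon
  push Not at hcon
  apply hh
  ext x
  have hx : x ∈ IntermediateField.adjoin F Y := by
    rw [hgen]
    exact IntermediateField.mem_top
  show h x = x
  induction hx using IntermediateField.adjoin_induction with
  | mem x hx => exact hcon x hx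
  | algebraMap x => exact h.commutes x
  | add x y _ _ hx hy => rw [map_add, hx, hy]
  | inv x _ hx => rw [map_inv₀, hx]
  | mul x y _ _ hx hy => rw [map_mul, hx, hy]

theorem Deep_map_smul (h : E ≃ₐ[F] E) (a : K) (x : E) : h (a • x) = a • h x := by
  rw [Algebra.smul_def, Algebra.smul_def, map_mul, IsScalarTower.algebraMap_apply K F E,
    h.commutes]

theorem Deep_algebraMap_smul (a : K) (f : F) : algebraMap F E (a • f) = a • algebraMap F E f := by
  rw [Algebra.smul_def, Algebra.smul_def, map_mul, ← IsScalarTower.algebraMap_apply K F E]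

/-- Kummer: if `y ≠ 0`, `y ^ m ∈ F` then every automorphism multiplies `y` by an `m`-th root of unity of `K`.
(`η := h y / y`, `η ^ m = 1` (`map_pow`, `AlgEquiv.commutes`); `η` is integral over `K`, `K` is algebraically closed:
`IsAlgClosed.algebraMap_bijective_of_isIntegral`-like for the subalgebra, or: `η` is a root of `X^m - 1`, which splits in `K`:
`IsAlgClosed.splits`, `Polynomial.Splits...`, or simply `IsAlgClosed.algebraMap_surjective_of_isIntegral'`/
`(IsAlgClosed.isAlgClosure..)`; see `Fermat.Agent.GAL.FF.Cor.exists_algebraMap_eq_of_isAlgebraic'` for a proof to copy (do not import it).) -/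
theorem Deep_eigen [IsAlgClosed K] {m : ℕ} (hm : m ≠ 0) {y : E} (hy0 : y ≠ 0) {u : F} (hy : y ^ m = algebraMap F E u)
    (h : E ≃ₐ[F] E) : ∃ ζ : K, ζ ^ m = 1 ∧ h y = ζ • y := by
  have hη : (h y / y) ^ m = 1 := by
    rw [div_pow, ← map_pow, hy, h.commutes, div_self]
    rw [← hy]
    exact pow_ne_zero m hy0
  have hint : IsIntegral K (h y / y) := by
    refine ⟨Polynomial.X ^ m - Polynomial.C 1, Polynomial.monic_X_pow_sub_C 1 hm, ?_⟩
    simp [hη]
  obtain ⟨ζ, hζ⟩ := minpoly.mem_range_of_degree_eq_one K (h y / y)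
    (IsAlgClosed.degree_eq_one_of_irreducible K (minpoly.irreducible hint))
  refine ⟨ζ, ?_, ?_⟩
  · apply (algebraMap K E).injective
    rw [map_pow, hζ, hη, map_one]
  · rw [Algebra.smul_def, hζ, div_mul_cancel₀ _ hy0]

/-- **Roots of deep elements generate a totally split extension.**
PROOF. `isSplit_of_kummer hm W`.
* `cof f`: `cof f` + `hW` (`c • algebraMap f = algebraMap (c • f)`: `algebraMap_smul`/`Algebra.smul_def` + scalar tower).
* `small`: `S36.Val.mem_nonunits_comap_iff`, `hW`, scalar tower.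
* `hk h hh c hc`: `Deep_exists_moved`: `y ∈ Y`, `h y ≠ y`.  `hY y _ (c ^ m)`: `v ≠ 0`, `h₀ ∈ O`, `(y * v) ^ m = algebraMap (1 + c ^ m • h₀) = 1 + c ^ m • algebraMap h₀`,
  `algebraMap h₀ ∈ W`.  `exists_root_close`: `ζ₀`, `y' := ζ₀ • (y * algebraMap v)`, `c⁻¹ • (y' - 1) ∈ W`.
  `y' ^ m = algebraMap (1 + c^m • h₀)` (`smul_pow`, `ζ₀ ^ m = 1`).  `y' ≠ 0`: `h y ≠ y` forces `y ≠ 0`; `ζ₀ ≠ 0` since `ζ₀ ^ m = 1`, `m ≠ 0`.
  `Deep_eigen` for `y'`: every `h'` multiplies `y'` by a root of unity `ζ'`; for `h` itself `ζ ≠ 1`, since `h y' = y'` would give `h y = y`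
  (`h y' = ζ₀ • (h y * v)`, cancel). -/
theorem isSplit_of_deep [IsAlgClosed K] [FiniteDimensional F E] {m : ℕ} (hm : (m : K) ≠ 0)
    (O : ValuationSubring F) (W : ValuationSubring E) (hW : W.comap (algebraMap F E) = O)
    (cof : ∀ f : F, ∃ c : K, c ≠ 0 ∧ c • f ∈ O)
    (small : ∃ c : K, c ≠ 0 ∧ algebraMap K F c ∈ O.nonunits)
    {Y : Set E} (hgen : IntermediateField.adjoin F Y = ⊤)
    (hY : ∀ y ∈ Y, ∀ c : K, c ≠ 0 → ∃ v : F, v ≠ 0 ∧ ∃ h ∈ O,
      (y * algebraMap F E v) ^ m = algebraMap F E (1 + c • h)) : IsSplit K F W := by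
  have hm0 : m ≠ 0 := by
    rintro rfl
    exact hm Nat.cast_zero
  have hmemW : ∀ f : F, f ∈ O → algebraMap F E f ∈ W := by
    intro f hf
    have h1 : f ∈ W.comap (algebraMap F E) := by
      rw [hW]
      exact hf
    exact h1
  refine isSplit_of_kummer hm W ?_ ?_ ?_
  · intro f
    obtain ⟨c, hc, hcf⟩ := cof f
    refine ⟨c, hc, ?_⟩
    rw [← Deep_algebraMap_smul]
    exact hmemW _ hcf
  · obtain ⟨c, hc, hcs⟩ := small
    refine ⟨c, hc, ?_⟩
    rw [← hW, S36.Val.mem_nonunits_comap_iff] at hcs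
    rwa [← IsScalarTower.algebraMap_apply] at hcs
  · intro h hh c hc
    obtain ⟨y, hyY, hy⟩ := Deep_exists_moved hgen h hh
    obtain ⟨v, hv, h₀, hh₀, hpow⟩ := hY y hyY (c ^ m) (pow_ne_zero m hc)
    have hw : algebraMap F E h₀ ∈ W := hmemW _ hh₀
    have hz : (y * algebraMap F E v) ^ m = 1 + (c ^ m) • algebraMap F E h₀ := by
      rw [hpow, map_add, map_one, Deep_algebraMap_smul]
    obtain ⟨ζ₀, hζ₀, hclose⟩ := exists_root_close W hm hc hw hz
    have hy'pow : (ζ₀ • (y * algebraMap F E v)) ^ m = algebraMap F E (1 + c ^ m • h₀) := by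
      rw [smul_pow, hζ₀, one_smul, hpow]
    have hy0 : y ≠ 0 := by
      rintro rfl
      exact hy (map_zero h)
    have hζ₀0 : ζ₀ ≠ 0 := by
      rintro rfl
      rw [zero_pow hm0] at hζ₀
      exact zero_ne_one hζ₀
    have hv' : algebraMap F E v ≠ 0 := by
      rw [Ne, map_eq_zero]
      exact hv
    have hy'0 : ζ₀ • (y * algebraMap F E v) ≠ 0 := smul_ne_zero hζ₀0 (mul_ne_zero hy0 hv')
    obtain ⟨ζ, hζ, hhy'⟩ := Deep_eigen (K := K) hm0 hy'0 hy'pow h
    refine ⟨ζ₀ • (y * algebraMap F E v), ζ, hζ, ?_, hhy',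
      fun h' => Deep_eigen (K := K) hm0 hy'0 hy'pow h', hclose⟩
    rintro rfl
    rw [one_smul, Deep_map_smul, map_mul, h.commutes] at hhy'
    apply hy
    have h2 := smul_right_injective E hζ₀0 hhy'
    exact mul_right_cancel₀ hv' h2

end Fermat.Agent.S33.Val
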