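import Fermat.Agent.S33.Val.Kummer.Avg

/-!
# S33 / Val / Kummer / Idem : deep Kummer generators give deep idempotents (pure Mathlib)
-/

set_option autoImplicit false

namespace Fermat.Agent.S33.Val

variable {K F E : Type*} [Field K] [Field F] [Field E] [Algebra K F] [Algebra K E] [Algebra F E]
  [IsScalarTower K F E]

omit [Field F] [Algebra K F] [Algebra F E] [IsScalarTower K F E] in
/-- `a ≡ b (mod c W)`, `b ∈ W`, `c ∈ W` ⟹ `a ∈ W`. -/
theorem Idem_mem_of_close (W : ValuationSubring E) {c : K} (hc0 : c ≠ 0) (hc : algebraMap K E c ∈ W)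
    {a b : E} (hb : b ∈ W) (ha : c⁻¹ • (a - b) ∈ W) : a ∈ W := by
  have h1 : a = b + algebraMap K E c * (c⁻¹ • (a - b)) := by
    rw [Algebra.smul_def, ← mul_assoc, ← map_mul, mul_inv_cancel₀ hc0, map_one, one_mul]
    ring
  rw [h1]
  exact W.add_mem _ _ hb (W.mul_mem _ _ hc ha)

omit [Field F] [Algebra K F] [Algebra F E] [IsScalarTower K F E] in
/-- a finite product of elements `≡ 1 (mod c W)` (`c ∈ W`) is `≡ 1 (mod c W)`.
(`Finset.induction_on`/`Finset.prod_induction` with `p a := c⁻¹ • (a - 1) ∈ W`: `a b - 1 = a (b - 1) + (a - 1)`, `a = 1 + c * (..) ∈ W`.) -/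
theorem Idem_prod_one (W : ValuationSubring E) {c : K} (hc0 : c ≠ 0) (hc : algebraMap K E c ∈ W)
    {ι : Type*} (s : Finset ι) (a : ι → E) (ha : ∀ i ∈ s, c⁻¹ • (a i - 1) ∈ W) :
    c⁻¹ • (∏ i ∈ s, a i - 1) ∈ W := by
  refine Finset.prod_induction a (fun x => c⁻¹ • (x - 1) ∈ W) ?_ ?_ ha
  · intro x y hx hy
    have hxW : x ∈ W := Idem_mem_of_close W hc0 hc W.one_mem hx
    have h1 : c⁻¹ • (x * y - 1) = x * (c⁻¹ • (y - 1)) + c⁻¹ • (x - 1) := by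
      simp only [Algebra.smul_def]
      ring
    rw [h1]
    exact W.add_mem _ _ (W.mul_mem _ _ hxW hy) hx
  · rw [sub_self, Algebra.smul_def, mul_zero]
    exact W.zero_mem

omit [Field F] [Algebra K F] [Algebra F E] [IsScalarTower K F E] in
/-- a finite product of elements of `W`, one of which is in `c W`, is in `c W`.
(`Finset.mul_prod_erase`, `smul_mul_assoc`, `Subring.prod_mem`.) -/
theorem Idem_prod_zero (W : ValuationSubring E) {c : K} {ι : Type*} [DecidableEq ι] (s : Finset ι) (a : ι → E)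
    (ha : ∀ i ∈ s, a i ∈ W) {i₀ : ι} (hi₀ : i₀ ∈ s) (h₀ : c⁻¹ • a i₀ ∈ W) : c⁻¹ • ∏ i ∈ s, a i ∈ W := by
  rw [← Finset.mul_prod_erase s a hi₀, ← smul_mul_assoc]
  refine W.mul_mem _ _ h₀ ?_
  exact prod_mem fun i hi => ha i (Finset.mem_of_mem_erase hi)

/-- an `F`-automorphism of `E` is `K`-linear. -/
theorem Idem_map_smul (h : E ≃ₐ[F] E) (a : K) (z : E) : h (a • z) = a • h z := by
  rw [Algebra.smul_def, Algebra.smul_def, map_mul, IsScalarTower.algebraMap_apply K F E, h.commutes]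

/-- **Deep Kummer generators ⟹ split.**
PROOF. `IsSplit.mk'`: let `c ≠ 0`, `c ∈ W`.  For `h ≠ 1` choose (`hk h _ (c * m)`; `classical`, `choose`; for `h = 1` put any junk, or index the product
by `Finset.univ.erase 1` / the subtype) `y_h`, and put `e_h := m⁻¹ • ∑_{j<m} y_h ^ j`, `ε := ∏_{h ≠ 1} e_h`.
For every `h'` and `h`: `h' y_h = ζ' • y_h`, so `h' e_h = m⁻¹ • ∑_j (ζ' • y_h)^j` (`map_smul` for the `K`-action: `h'` is `K`-linear because of the scalar tower: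
`Algebra.smul_def`, `IsScalarTower.algebraMap_apply K F E`, `AlgEquiv.commutes`; `map_sum`, `map_pow`), and `Avg_main` gives
`c⁻¹ • (h' e_h - [ζ' = 1]) ∈ W`; in particular `h' e_h ∈ W` in both cases (`c ∈ W`).
* `h' = 1`: `ζ' = 1` (as `y_h ≠ 0`; or apply `Avg_main` directly with `ζ = 1`, `one_smul`): `e_h ≡ 1`; `Idem_prod_one`.
* `h' ≠ 1`: `h' ε = ∏_h h' e_h` (`map_prod`); the factor `h = h'` has `ζ' = ζ ≠ 1`... (the `ζ'` given by the 4th component may differ from `ζ` only if `y = 0`;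
  simply use `ζ` itself for this factor): `c⁻¹ • h' e_{h'} ∈ W`; `Idem_prod_zero`. -/
theorem isSplit_of_kummer [FiniteDimensional F E] {m : ℕ} (hm : (m : K) ≠ 0) (W : ValuationSubring E)
    (cof : ∀ f : F, ∃ c : K, c ≠ 0 ∧ c • algebraMap F E f ∈ W)
    (small : ∃ c : K, c ≠ 0 ∧ algebraMap K E c ∈ W.nonunits)
    (hk : ∀ h : E ≃ₐ[F] E, h ≠ 1 → ∀ c : K, c ≠ 0 → ∃ (y : E) (ζ : K), ζ ^ m = 1 ∧ ζ ≠ 1 ∧ h y = ζ • y ∧
      (∀ h' : E ≃ₐ[F] E, ∃ ζ' : K, ζ' ^ m = 1 ∧ h' y = ζ' • y) ∧ c⁻¹ • (y - 1) ∈ W) :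
    IsSplit K F W := by
  classical
  refine IsSplit.mk' cof small fun c hc0 hc => ?_
  have hcm : c * (m : K) ≠ 0 := mul_ne_zero hc0 hm
  -- the choice
  have hk' : ∀ h : {h : E ≃ₐ[F] E // h ≠ 1}, ∃ (y : E) (ζ : K), ζ ^ m = 1 ∧ ζ ≠ 1 ∧
      (h : E ≃ₐ[F] E) y = ζ • y ∧
      (∀ h' : E ≃ₐ[F] E, ∃ ζ' : K, ζ' ^ m = 1 ∧ h' y = ζ' • y) ∧ (c * (m : K))⁻¹ • (y - 1) ∈ W :=
    fun h => hk h.1 h.2 _ hcm
  choose y ζ hζ hζ1 hy hall hclose using hk'
  let e : {h : E ≃ₐ[F] E // h ≠ 1} → E := fun h => (m : K)⁻¹ • ∑ j ∈ Finset.range m, y h ^ j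
  have hmap : ∀ (h' : E ≃ₐ[F] E) (h : {h : E ≃ₐ[F] E // h ≠ 1}) (z : K), h' (y h) = z • y h →
      h' (e h) = (m : K)⁻¹ • ∑ j ∈ Finset.range m, (z • y h) ^ j := by
    intro h' h z hz
    show h' ((m : K)⁻¹ • ∑ j ∈ Finset.range m, y h ^ j) = _
    rw [Idem_map_smul, map_sum]
    congr 1
    refine Finset.sum_congr rfl fun j _ => ?_
    rw [map_pow, hz]
  have hmem : ∀ (h' : E ≃ₐ[F] E) (h : {h : E ≃ₐ[F] E // h ≠ 1}), h' (e h) ∈ W := by
    intro h' h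
    obtain ⟨z, hz, hzy⟩ := hall h h'
    have h1 := Avg_main W hm hc0 hc (hclose h) hz
    rw [← hmap h' h z hzy] at h1
    refine Idem_mem_of_close W hc0 hc ?_ h1
    split_ifs
    · exact W.one_mem
    · exact W.zero_mem
  refine ⟨∏ h : {h : E ≃ₐ[F] E // h ≠ 1}, e h, ?_, ?_⟩
  · refine Idem_prod_one W hc0 hc _ _ fun h _ => ?_
    have h1 := Avg_main W hm hc0 hc (hclose h) (one_pow m : (1 : K) ^ m = 1)
    rw [if_pos rfl, one_smul] at h1
    exact h1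
  · intro h' hh'
    rw [map_prod]
    refine Idem_prod_zero W Finset.univ (fun h => h' (e h)) (fun h _ => hmem h' h)
      (Finset.mem_univ (⟨h', hh'⟩ : {h : E ≃ₐ[F] E // h ≠ 1})) ?_
    have h1 := Avg_main W hm hc0 hc (hclose ⟨h', hh'⟩) (hζ ⟨h', hh'⟩)
    rw [if_neg (hζ1 _), sub_zero, ← hmap h' ⟨h', hh'⟩ _ (hy ⟨h', hh'⟩)] at h1
    exact h1

end Fermat.Agent.S33.Val
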